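import Mathlib

/-!
# Cell A3 / GR: inertia-invariant lifts of residue constants (helper439)

`V` a valuation subring of a field `K`, `k` its residue field.

* `exists_rootOfUnity_lift`     : if `X ^ n - 1` splits in `K` then every `n`-th root of unity of
                                  `k` is the residue of an `n`-th root of unity of `K` (lying in `V`).
* `rootOfUnity_eq_of_residue_eq`: if `n` is invertible in `k`, two `n`-th roots of unity of `K` with
                                  the same residue are equal.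
* `exists_pow_eq_one_of_isAlgebraic` : a nonzero element of a field of characteristic `ℓ > 0`
                                  which is algebraic over `ZMod ℓ` is a root of unity of order
                                  prime to `ℓ`.
* `isAlgebraic_residue`         : if `K / ℚ` is algebraic and `ℓ ∈ 𝔪_V` then `k` is algebraic over
                                  `ZMod ℓ`.
* `exists_inertia_fixed_lift`   : (**I_lift_const**) `K` algebraically closed and algebraic over
                                  `ℚ`, `ℓ ∈ 𝔪_V`: every `c ∈ k` has a lift `a ∈ V` which is fixed by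
                                  every ring endomorphism `σ` of `K` with `σ b - b ∈ 𝔪_V` for all
                                  `b ∈ V` (in particular by the inertia group of `V`).
-/

set_option autoImplicit false

noncomputable section

open Polynomial IsLocalRing

namespace Fermat.Agent.S19.H439

variable {K : Type*} [Field K] (V : ValuationSubring K)

/-- A root of unity lies in every valuation subring. -/
theorem mem_of_pow_eq_one {ζ : K} {n : ℕ} (hn : n ≠ 0) (h : ζ ^ n = 1) : ζ ∈ V := by
  rcases V.mem_or_inv_mem ζ with h1 | h1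
  · exact h1
  · have : ζ = (ζ⁻¹) ^ (n - 1) := by
      have e : ζ * ζ ^ (n - 1) = 1 := by
        rw [← pow_succ', Nat.sub_add_cancel (Nat.pos_of_ne_zero hn)]
        exact h
      rw [inv_pow]
      exact eq_inv_of_mul_eq_one_left e
    rw [this]
    exact pow_mem h1 _

/-- Residues of elements of `K` lying in `V`. -/
def resOf (a : K) (ha : a ∈ V) : ResidueField V := residue V ⟨a, ha⟩

theorem resOf_eq_iff {a b : K} (ha : a ∈ V) (hb : b ∈ V) :
    resOf V a ha = resOf V b hb ↔ a - b ∈ V.nonunits := by
  unfold resOf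
  rw [← sub_eq_zero, ← map_sub, residue_eq_zero_iff, ← V.coe_mem_nonunits_iff]
  rfl

/-- If `n` is invertible in the residue field, two `n`-th roots of unity with the same residue
are equal. -/
theorem rootOfUnity_eq_of_residue_eq {n : ℕ} (hn : (n : ResidueField V) ≠ 0) {ζ ζ' : K}
    (hζ : ζ ^ n = 1) (hζ' : ζ' ^ n = 1) (h : ζ - ζ' ∈ V.nonunits) : ζ = ζ' := by
  have hn0 : n ≠ 0 := by
    rintro rfl
    exact hn (by simp)
  have hζ'0 : ζ' ≠ 0 := by
    rintro rfl
    rw [zero_pow hn0] at hζ'
    exact zero_ne_one hζ'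
  have hζ'V : ζ' ∈ V := mem_of_pow_eq_one V hn0 hζ'
  have hζV : ζ ∈ V := mem_of_pow_eq_one V hn0 hζ
  -- `u = ζ / ζ'`
  set u : K := ζ / ζ' with hu
  have hun : u ^ n = 1 := by rw [hu, div_pow, hζ, hζ', div_one]
  have huV : u ∈ V := mem_of_pow_eq_one V hn0 hun
  have hζ'inv : ζ'⁻¹ ∈ V := mem_of_pow_eq_one V hn0 (by rw [inv_pow, hζ', inv_one])
  have hu1 : u - 1 ∈ V.nonunits := by
    have e : u - 1 = (ζ - ζ') * ζ'⁻¹ := by
      rw [hu]; field_simp
    rw [e]
    have hmax : (⟨ζ, hζV⟩ - ⟨ζ', hζ'V⟩ : V) ∈ maximalIdeal V := by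
      rw [← V.coe_mem_nonunits_iff]
      exact h
    have hmul := Ideal.mul_mem_right (⟨ζ'⁻¹, hζ'inv⟩ : V) _ hmax
    rw [← V.coe_mem_nonunits_iff] at hmul
    exact hmul
  by_contra hne
  have hune : u ≠ 1 := by
    intro h1
    apply hne
    rw [hu, div_eq_one_iff_eq hζ'0] at h1
    exact h1
  -- geometric sum
  have hgeom : ∑ i ∈ Finset.range n, u ^ i = 0 := by
    have := mul_neg_geom_sum u n
    rw [hun, sub_self] at this
    rcases mul_eq_zero.mp this with h1 | h1
    · exact absurd (sub_eq_zero.mp h1).symm hune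
    · exact h1
  -- reduce
  let uV : V := ⟨u, huV⟩
  have hres : residue V uV = 1 := by
    rw [← sub_eq_zero, ← map_one (residue V), ← map_sub, residue_eq_zero_iff,
      ← V.coe_mem_nonunits_iff]
    exact hu1
  have hsumV : ∑ i ∈ Finset.range n, uV ^ i = 0 := by
    apply Subtype.ext
    push_cast
    exact hgeom
  have := congrArg (residue V) hsumV
  rw [map_sum, map_zero] at this
  simp only [map_pow, hres, one_pow, Finset.sum_const, Finset.card_range, nsmul_eq_mul,
    mul_one] at this
  exact hn this

/-- If `X ^ n - 1` splits in `K`, every `n`-th root of unity of the residue field is the residue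
of an `n`-th root of unity of `K`. -/
theorem exists_rootOfUnity_lift [IsAlgClosed K] {n : ℕ} (hn : n ≠ 0) {c : ResidueField V}
    (hc : c ^ n = 1) :
    ∃ (ζ : K) (hζ : ζ ∈ V), ζ ^ n = 1 ∧ residue V ⟨ζ, hζ⟩ = c := by
  classical
  -- factor `X ^ n - 1` over `K`
  have hsplit : (X ^ n - 1 : K[X]).Splits := IsAlgClosed.splits _
  have hmonic : (X ^ n - 1 : K[X]).Monic := monic_X_pow_sub_C 1 hn
  have hprod := hsplit.eq_prod_roots_of_monic hmonic
  set s := (X ^ n - 1 : K[X]).roots with hs
  have hroot : ∀ ζ ∈ s, ζ ^ n = 1 := by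
    intro ζ hζ
    have := (mem_roots hmonic.ne_zero).mp hζ
    simpa [sub_eq_zero] using this
  have hmemV : ∀ ζ ∈ s, ζ ∈ V := fun ζ hζ => mem_of_pow_eq_one V hn (hroot ζ hζ)
  -- the multiset of roots, as elements of `V`
  let t : Multiset V := s.pmap (fun ζ h => (⟨ζ, h⟩ : V)) hmemV
  have ht : t.map (fun a : V => (a : K)) = s := by
    simp only [t]
    rw [Multiset.map_pmap, Multiset.pmap_eq_map, Multiset.map_id']
  have hprodV : (X ^ n - 1 : V[X]) = (t.map fun a => X - C a).prod := by
    apply Polynomial.map_injective V.subtype Subtype.val_injective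
    rw [Polynomial.map_sub, Polynomial.map_pow, Polynomial.map_X, Polynomial.map_one,
      Polynomial.map_multiset_prod, Multiset.map_map]
    conv_lhs => rw [hprod]
    rw [← ht, Multiset.map_map]
    congr 1
    apply Multiset.map_congr rfl
    intro a _
    simp
  have hprodk : (X ^ n - 1 : (ResidueField V)[X])
      = (t.map fun a => X - C (residue V a)).prod := by
    have := congrArg (Polynomial.map (residue V)) hprodV
    rw [Polynomial.map_sub, Polynomial.map_pow, Polynomial.map_X, Polynomial.map_one,
      Polynomial.map_multiset_prod, Multiset.map_map] at this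
    rw [this]
    congr 1
    apply Multiset.map_congr rfl
    intro a _
    simp
  have hev : ((t.map fun a => X - C (residue V a)).prod).eval c = 0 := by
    rw [← hprodk]
    simp [hc]
  rw [Polynomial.eval_multiset_prod, Multiset.prod_eq_zero_iff, Multiset.map_map] at hev
  obtain ⟨a, ha, hac⟩ := Multiset.mem_map.mp hev
  simp only [Function.comp_apply, eval_sub, eval_X, eval_C] at hac
  have hat : (a : K) ∈ s := by
    rw [← ht]
    exact Multiset.mem_map_of_mem _ ha
  refine ⟨a, a.2, hroot _ hat, ?_⟩
  have : residue V a = c := (sub_eq_zero.mp hac).symm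
  exact this

/-- A nonzero element of a field of characteristic `ℓ`, algebraic over `ZMod ℓ`, is a root of
unity of order prime to `ℓ`. -/
theorem exists_pow_eq_one_of_isAlgebraic {k : Type*} [Field k] {ℓ : ℕ} [Fact ℓ.Prime]
    [Algebra (ZMod ℓ) k] {c : k} (hc : c ≠ 0) (halg : IsAlgebraic (ZMod ℓ) c) :
    ∃ n : ℕ, n ≠ 0 ∧ (n : k) ≠ 0 ∧ c ^ n = 1 := by
  classical
  let E := IntermediateField.adjoin (ZMod ℓ) {c}
  have : FiniteDimensional (ZMod ℓ) E :=
    IntermediateField.adjoin.finiteDimensional halg.isIntegral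
  have : Finite E := Module.finite_of_finite (ZMod ℓ)
  let _ : Fintype E := Fintype.ofFinite E
  let cE : E := ⟨c, IntermediateField.mem_adjoin_simple_self (ZMod ℓ) c⟩
  have hcE : cE ≠ 0 := fun h => hc (congrArg Subtype.val h)
  have hpow := FiniteField.pow_card_sub_one_eq_one cE hcE
  have hcard0 : ((Fintype.card E : ℕ) : E) = 0 := FiniteField.cast_card_eq_zero E
  have hcard1 : 1 < Fintype.card E := Fintype.one_lt_card
  refine ⟨Fintype.card E - 1, by omega, ?_, ?_⟩
  · have h1 : ((Fintype.card E - 1 : ℕ) : E) = -1 := by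
      rw [Nat.cast_sub hcard1.le, hcard0, Nat.cast_one, zero_sub]
    intro h0
    have h2 : ((Fintype.card E - 1 : ℕ) : k) = algebraMap E k ((Fintype.card E - 1 : ℕ) : E) := by
      rw [map_natCast]
    rw [h2, h1, map_neg, map_one] at h0
    exact one_ne_zero (neg_eq_zero.mp h0)
  · have := congrArg (algebraMap E k) hpow
    rw [map_pow, map_one] at this
    exact this

section Residue

variable {ℓ : ℕ} [Fact ℓ.Prime]

omit [Fact ℓ.Prime] in
/-- The residue field of a valuation ring containing `ℓ` in its maximal ideal has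
characteristic `ℓ`. -/
theorem natCast_residue_eq_zero' (hℓ : (ℓ : K) ∈ V.nonunits) : ((ℓ : ℕ) : ResidueField V) = 0 := by
  have h1 : ((ℓ : V) : K) ∈ V.nonunits := by
    have : ((ℓ : V) : K) = (ℓ : K) := by simp
    rw [this]; exact hℓ
  have h2 : (ℓ : V) ∈ maximalIdeal V := V.coe_mem_nonunits_iff.mp h1
  have h3 := (residue_eq_zero_iff (ℓ : V)).mpr h2
  rwa [map_natCast] at h3

theorem charP_residueField (hℓ : (ℓ : K) ∈ V.nonunits) : CharP (ResidueField V) ℓ := by
  obtain ⟨p, hp⟩ := CharP.exists (ResidueField V)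
  have hdvd : p ∣ ℓ := (CharP.cast_eq_zero_iff (ResidueField V) p ℓ).mp
    (natCast_residue_eq_zero' V hℓ)
  rcases (Nat.dvd_prime (Fact.out : ℓ.Prime)).mp hdvd with h1 | h1
  · subst h1
    exact absurd rfl (CharP.char_ne_one (ResidueField V) 1)
  · subst h1
    exact hp

/-- If `K` is algebraic over `ℚ`, every residue is a root of a polynomial with integer
coefficients which is nonzero modulo `ℓ`. -/
theorem exists_int_poly_residue [Algebra ℚ K] [Algebra.IsAlgebraic ℚ K] (a : K) (ha : a ∈ V) :
    ∃ q : ℤ[X], q.map (Int.castRingHom (ZMod ℓ)) ≠ 0 ∧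
      q.eval₂ (Int.castRingHom (ResidueField V)) (residue V ⟨a, ha⟩) = 0 := by
  have hcz : CharZero K := charZero_of_injective_algebraMap (algebraMap ℚ K).injective
  have halg : IsAlgebraic ℚ a := Algebra.IsAlgebraic.isAlgebraic a
  have halgZ : IsAlgebraic ℤ a := (IsFractionRing.isAlgebraic_iff ℤ ℚ K).mpr halg
  obtain ⟨p, hp0, hpa⟩ := halgZ
  have hq := Polynomial.aeval_primPart_eq_zero hp0 hpa
  refine ⟨p.primPart, ?_, ?_⟩
  · intro h0
    have hdvd : C (ℓ : ℤ) ∣ p.primPart := by
      rw [Polynomial.C_dvd_iff_dvd_coeff]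
      intro i
      have := congrArg (fun r => Polynomial.coeff r i) h0
      simp only [coeff_map, coeff_zero, eq_intCast] at this
      exact (ZMod.intCast_zmod_eq_zero_iff_dvd _ _).mp this
    have hu := (Polynomial.isPrimitive_primPart p) _ hdvd
    have hprime : Prime (ℓ : ℤ) := Nat.prime_iff_prime_int.mp (Fact.out : ℓ.Prime)
    exact hprime.not_isUnit hu
  · -- evaluate in `V`, then reduce
    have h1 : V.subtype (p.primPart.eval₂ (Int.castRingHom V) (⟨a, ha⟩ : V))
        = p.primPart.eval₂ (Int.castRingHom K) a := by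
      rw [Polynomial.hom_eval₂ p.primPart (Int.castRingHom V) V.subtype (⟨a, ha⟩ : V)]
      have e : V.subtype.comp (Int.castRingHom V) = Int.castRingHom K := RingHom.ext_int _ _
      rw [e]
      rfl
    have h2 : p.primPart.eval₂ (Int.castRingHom K) a = 0 := by
      rw [← hq, Polynomial.aeval_def]
      have e : algebraMap ℤ K = Int.castRingHom K := RingHom.ext_int _ _
      rw [e]
    have hinj : Function.Injective V.subtype := fun x y h => Subtype.ext h
    have h3 : p.primPart.eval₂ (Int.castRingHom V) (⟨a, ha⟩ : V) = 0 :=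
      hinj ((h1.trans h2).trans (map_zero V.subtype).symm)
    have h4 := congrArg (residue V) h3
    rw [map_zero, Polynomial.hom_eval₂] at h4
    have e : (residue V).comp (Int.castRingHom V) = Int.castRingHom (ResidueField V) :=
      RingHom.ext_int _ _
    rw [e] at h4
    exact h4

/-- **Inertia-invariant lifts of residue constants** (`I_lift_const`).  Let `K` be algebraically
closed and algebraic over `ℚ`, `V` a valuation subring with `ℓ ∈ 𝔪_V`.  Every element of the
residue field has a lift `a ∈ V` (namely `0` or a root of unity of order prime to `ℓ`) which is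
fixed by every ring endomorphism `σ` of `K` with `σ b ≡ b mod 𝔪_V` for all `b ∈ V`. -/
theorem exists_inertia_fixed_lift [IsAlgClosed K] [Algebra ℚ K] [Algebra.IsAlgebraic ℚ K]
    (hℓ : (ℓ : K) ∈ V.nonunits) (c : ResidueField V) :
    ∃ (a : K) (ha : a ∈ V), residue V ⟨a, ha⟩ = c ∧
      ∀ σ : K →+* K, (∀ b ∈ V, σ b - b ∈ V.nonunits) → σ a = a := by
  by_cases hc : c = 0
  · refine ⟨0, V.zero_mem, ?_, fun σ _ => map_zero σ⟩
    rw [hc]
    exact map_zero (residue V)
  have hchar := charP_residueField V hℓ
  let _ : Algebra (ZMod ℓ) (ResidueField V) := ZMod.algebra _ ℓ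
  obtain ⟨a₀, rfl⟩ := residue_surjective (R := V) c
  obtain ⟨q, hq0, hq⟩ := exists_int_poly_residue (ℓ := ℓ) V (a₀ : K) a₀.2
  have halg : IsAlgebraic (ZMod ℓ) (residue V a₀) := by
    refine ⟨q.map (Int.castRingHom (ZMod ℓ)), hq0, ?_⟩
    rw [Polynomial.aeval_def, Polynomial.eval₂_map]
    rw [← hq]
    congr 1
    exact RingHom.ext_int _ _
  obtain ⟨n, hn0, hnk, hpow⟩ := exists_pow_eq_one_of_isAlgebraic (ℓ := ℓ) hc halg
  obtain ⟨ζ, hζV, hζn, hζc⟩ := exists_rootOfUnity_lift V hn0 hpow
  refine ⟨ζ, hζV, hζc, fun σ hσ => ?_⟩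
  have h1 : (σ ζ) ^ n = 1 := by rw [← map_pow, hζn, map_one]
  exact rootOfUnity_eq_of_residue_eq V hnk h1 hζn (hσ ζ hζV)

end Residue

end Fermat.Agent.S19.H439
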