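import Fermat.Agent.A3.H75.DiscValue
import Fermat.Prelude.Def_AlgebraicCurve_BaseChangeGalois

/-!
# Cell A3 / GR-BASE (helper439): `t`-adic jets and coefficient functionals at a place

`P` a place of degree one of `F / K`, `t` a uniformizer at `P` (`ord_P t = 1`).

* `valAt P h`        : the value `h(P) ∈ K` of a function regular at `P` (junk `0` otherwise);
* `jet P t h i`      : `jet 0 = h`, `jet (i+1) = (jet i - (jet i)(P)) / t`;
* `jcoeff P t h i`   : the `i`-th Taylor coefficient `(jet i)(P)` of `h` in the parameter `t`;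
* `jet_mem`          : all jets of a regular function are regular;
* `jet_add`, `jet_mul_const`, `jcoeff_add`, `jcoeff_mul_const` : linearity;
* `jet_smul_aut`, `jcoeff_smul_aut` : equivariance under a semilinear automorphism fixing `P`
                                      and `t`;
* `ord_ge_of_jcoeff_eq_zero` : if the first `n` coefficients vanish then `ord_P h ≥ n`.
-/

set_option autoImplicit false

noncomputable section

namespace Fermat.Agent.S19.H439

open AlgebraicCurve Fermat.Agent.Lib.RR Fermat.Agent.A3.H75

variable {K : Type*} [Field K] {F : Type*} [Field F] [Algebra K F]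

/-- The value of `h` at `P` (junk `0` if `h` is not regular at `P` or has no value). -/
def valAt (P : Place K F) (h : F) : K :=
  open Classical in if hh : ∃ b, HasVal P h b then hh.choose else 0

theorem valAt_eq {P : Place K F} {h : F} {b : K} (hb : HasVal P h b) : valAt P h = b := by
  have hh : ∃ b, HasVal P h b := ⟨b, hb⟩
  unfold valAt
  rw [dif_pos hh]
  exact hh.choose_spec.unique hb

theorem hasVal_valAt (P : Place K F) (hP : P.deg = 1) {h : F} (hh : h ∈ P.toValuationSubring) :
    HasVal P h (valAt P h) := by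
  obtain ⟨b, hb⟩ := exists_hasVal P hP hh
  rw [valAt_eq hb]
  exact hb

theorem valAt_algebraMap (P : Place K F) (a : K) : valAt P (algebraMap K F a) = a :=
  valAt_eq (hasVal_algebraMap P a)

/-- Transport of values under a semilinear automorphism. -/
theorem hasVal_smul_aut (g : SemilinearAut K F) {P : Place K F} {h : F} {b : K}
    (hb : HasVal P h b) : HasVal (g • P) (g • h) (SemilinearAut.baseAut g b) := by
  unfold HasVal at hb ⊢
  have e : g • h - algebraMap K F (SemilinearAut.baseAut g b) = g • (h - algebraMap K F b) := by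
    rw [smul_sub, SemilinearAut.smul_algebraMap]
  rw [e, mem_nonunits_iff_ord]
  rcases (mem_nonunits_iff_ord P _).mp hb with h0 | h1
  · left
    rw [h0, smul_zero]
  · right
    rw [SemilinearAut.ord_smul]
    exact h1

/-- Dividing an element of the maximal ideal by a uniformizer. -/
theorem mul_inv_mem_of_mem_nonunits (P : Place K F) {t x : F} (ht : P.ord t = 1)
    (hx : x ∈ P.toValuationSubring.nonunits) : x * t⁻¹ ∈ P.toValuationSubring := by
  have ht0 : t ≠ 0 := ne_zero_of_ord_ne_zero P (by rw [ht]; exact one_ne_zero)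
  rcases (mem_nonunits_iff_ord P x).mp hx with h0 | h1
  · rw [h0, zero_mul]
    exact zero_mem _
  · have hx0 : x ≠ 0 := ne_zero_of_ord_ne_zero P (ne_of_gt h1)
    apply mem_of_ord_nonneg
    rw [P.ord_mul hx0 (inv_ne_zero ht0), P.ord_inv, ht]
    omega

/-- The jets of `h` at `P` in the parameter `t`. -/
def jet (P : Place K F) (t h : F) : ℕ → F
  | 0 => h
  | i + 1 => (jet P t h i - algebraMap K F (valAt P (jet P t h i))) * t⁻¹

/-- The Taylor coefficients of `h` at `P` in the parameter `t`. -/
def jcoeff (P : Place K F) (t h : F) (i : ℕ) : K := valAt P (jet P t h i)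

@[simp] theorem jet_zero (P : Place K F) (t h : F) : jet P t h 0 = h := rfl

theorem jet_succ (P : Place K F) (t h : F) (i : ℕ) :
    jet P t h (i + 1) = (jet P t h i - algebraMap K F (jcoeff P t h i)) * t⁻¹ := rfl

section Regular

variable (P : Place K F) (hP : P.deg = 1) {t : F} (ht : P.ord t = 1)

include hP ht

theorem jet_mem {h : F} (hh : h ∈ P.toValuationSubring) :
    ∀ i, jet P t h i ∈ P.toValuationSubring := by
  intro i
  induction i with
  | zero => exact hh
  | succ i ih =>
    rw [jet_succ]
    exact mul_inv_mem_of_mem_nonunits P ht (hasVal_valAt P hP ih)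

theorem hasVal_jcoeff {h : F} (hh : h ∈ P.toValuationSubring) (i : ℕ) :
    HasVal P (jet P t h i) (jcoeff P t h i) :=
  hasVal_valAt P hP (jet_mem P hP ht hh i)

theorem jet_add {h h' : F} (hh : h ∈ P.toValuationSubring) (hh' : h' ∈ P.toValuationSubring) :
    ∀ i, jet P t (h + h') i = jet P t h i + jet P t h' i := by
  intro i
  induction i with
  | zero => rfl
  | succ i ih =>
    rw [jet_succ, jet_succ, jet_succ]
    have hv : jcoeff P t (h + h') i = jcoeff P t h i + jcoeff P t h' i := by
      unfold jcoeff
      rw [ih]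
      exact valAt_eq ((hasVal_jcoeff P hP ht hh i).add (hasVal_jcoeff P hP ht hh' i))
    rw [hv, ih, map_add]
    ring

theorem jcoeff_add {h h' : F} (hh : h ∈ P.toValuationSubring)
    (hh' : h' ∈ P.toValuationSubring) (i : ℕ) :
    jcoeff P t (h + h') i = jcoeff P t h i + jcoeff P t h' i := by
  unfold jcoeff
  rw [jet_add P hP ht hh hh']
  exact valAt_eq ((hasVal_jcoeff P hP ht hh i).add (hasVal_jcoeff P hP ht hh' i))

theorem jet_mul_const (a : K) {h : F} (hh : h ∈ P.toValuationSubring) :
    ∀ i, jet P t (algebraMap K F a * h) i = algebraMap K F a * jet P t h i := by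
  intro i
  induction i with
  | zero => rfl
  | succ i ih =>
    rw [jet_succ, jet_succ]
    have hv : jcoeff P t (algebraMap K F a * h) i = a * jcoeff P t h i := by
      unfold jcoeff
      rw [ih]
      exact valAt_eq ((hasVal_algebraMap P a).mul (hasVal_jcoeff P hP ht hh i))
    rw [hv, ih, map_mul]
    ring

theorem jcoeff_mul_const (a : K) {h : F} (hh : h ∈ P.toValuationSubring) (i : ℕ) :
    jcoeff P t (algebraMap K F a * h) i = a * jcoeff P t h i := by
  unfold jcoeff
  rw [jet_mul_const P hP ht a hh]
  exact valAt_eq ((hasVal_algebraMap P a).mul (hasVal_jcoeff P hP ht hh i))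

/-- Equivariance of the jets under a semilinear automorphism fixing `P` and `t`. -/
theorem jet_smul_aut (g : SemilinearAut K F) (hgP : g • P = P) (hgt : g • t = t) {h : F}
    (hh : h ∈ P.toValuationSubring) :
    ∀ i, jet P t (g • h) i = g • jet P t h i := by
  intro i
  induction i with
  | zero => rfl
  | succ i ih =>
    rw [jet_succ, jet_succ]
    have hv : jcoeff P t (g • h) i = SemilinearAut.baseAut g (jcoeff P t h i) := by
      unfold jcoeff
      rw [ih]
      have := hasVal_smul_aut g (hasVal_jcoeff P hP ht hh i)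
      rw [hgP] at this
      exact valAt_eq this
    rw [hv, ih, smul_mul', smul_sub, SemilinearAut.smul_algebraMap, smul_inv'', hgt]

theorem jcoeff_smul_aut (g : SemilinearAut K F) (hgP : g • P = P) (hgt : g • t = t) {h : F}
    (hh : h ∈ P.toValuationSubring) (i : ℕ) :
    jcoeff P t (g • h) i = SemilinearAut.baseAut g (jcoeff P t h i) := by
  unfold jcoeff
  rw [jet_smul_aut P hP ht g hgP hgt hh]
  have := hasVal_smul_aut g (hasVal_jcoeff P hP ht hh i)
  rw [hgP] at this
  exact valAt_eq this

omit hP in
/-- If the first `n` Taylor coefficients vanish then `h = jet n * t ^ n`. -/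
theorem eq_jet_mul_pow_of_jcoeff_eq_zero {h : F} (n : ℕ)
    (h0 : ∀ i < n, jcoeff P t h i = 0) : h = jet P t h n * t ^ n := by
  have ht0 : t ≠ 0 := ne_zero_of_ord_ne_zero P (by rw [ht]; exact one_ne_zero)
  induction n with
  | zero => simp
  | succ n ih =>
    have h1 := ih (fun i hi => h0 i (Nat.lt_succ_of_lt hi))
    rw [jet_succ, h0 n (Nat.lt_succ_self n), map_zero, sub_zero, pow_succ]
    have : jet P t h n * t⁻¹ * (t ^ n * t) = jet P t h n * t ^ n := by
      field_simp
    rw [this]
    exact h1

/-- If the first `n` Taylor coefficients of a regular `h ≠ 0` vanish, then `ord_P h ≥ n`. -/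
theorem ord_ge_of_jcoeff_eq_zero {h : F} (hh : h ∈ P.toValuationSubring) (hh0 : h ≠ 0) (n : ℕ)
    (h0 : ∀ i < n, jcoeff P t h i = 0) : (n : ℤ) ≤ P.ord h := by
  have ht0 : t ≠ 0 := ne_zero_of_ord_ne_zero P (by rw [ht]; exact one_ne_zero)
  have e := eq_jet_mul_pow_of_jcoeff_eq_zero P ht n h0
  have hj0 : jet P t h n ≠ 0 := by
    intro hz
    rw [hz, zero_mul] at e
    exact hh0 e
  have hjm := ord_nonneg_of_mem P (jet_mem P hP ht hh n)
  rw [e, P.ord_mul hj0 (pow_ne_zero n ht0), ord_pow, ht]
  omega

end Regular

end Fermat.Agent.S19.H439
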