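import Fermat.Agent.S19.H439.BaseJet
import Fermat.Agent.S19.H195.MaxPrinciple

/-!
# Cell A3 / GR-BASE (helper439): the `q`-expansion principle on `L(m P∞)`, abstract form

`R : H195.RedDatum K F k Fk` an abstract good-reduction datum (Gauss ring `R.V ⊆ F`, reduction
`R.red`, place map `R.r` with `r_* div u = div (red u)`); NO orthonormal bases are assumed.

`B : BaseParam R` : a place `P` and an integral parameter `t` at `P` on the residue disc of `P`:
`t, t⁻¹ ∈ R.V`, `ord_P t = 1 = ord_{r P} (red t)`, `t` without poles on the disc `r⁻¹(r P)`.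
(Modular instance: `P` = the cusp `∞`, `t = 1 / j`.)

* `BaseParam.ord_t_eq_zero` : `t` has no zero or pole on the disc besides `P`;
* `BaseParam.IntReg`        : `h ∈ R.V` is regular on the disc of `P`;
* `BaseParam.intReg_jet`, `BaseParam.jcoeff_mem` (**Theorem A**): all `t`-adic Taylor coefficients
  at `P` of such an `h` are integral.  (False for general `h ∈ R.V`: `1 / (ℓ + t)`.)
* `BaseParam.exists_redT_jcoeff_ne_zero` (**Theorem B**): if `f ∈ L(m P) ∩ R.V` has nonzero
  reduction, one of the coefficients `c_0, …, c_m` of `f t^m` is a unit.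
-/

set_option autoImplicit false

noncomputable section

namespace Fermat.Agent.S19.H439

open AlgebraicCurve Fermat.Agent.Lib.RR Fermat.Agent.A3.H75 Fermat.Agent.S19.H195

universe u₁ u₂ u₃ u₄

variable {K : Type u₁} {F : Type u₂} {k : Type u₃} {Fk : Type u₄}
  [Field K] [Field F] [Algebra K F] [Field k] [Field Fk] [Algebra k Fk]

/-- Total reduction (junk `0` outside the Gauss ring). -/
def redT (R : RedDatum K F k Fk) (f : F) : Fk :=
  open Classical in if h : f ∈ R.V then R.red ⟨f, h⟩ else 0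

section RedT

variable (R : RedDatum K F k Fk)

theorem redT_of_mem {f : F} (h : f ∈ R.V) : redT R f = R.red ⟨f, h⟩ := dif_pos h

theorem redT_zero : redT R 0 = 0 := by
  rw [redT_of_mem R R.V.zero_mem]
  exact map_zero R.red

theorem redT_one : redT R 1 = 1 := by
  rw [redT_of_mem R R.V.one_mem]
  exact map_one R.red

theorem redT_add {f g : F} (hf : f ∈ R.V) (hg : g ∈ R.V) :
    redT R (f + g) = redT R f + redT R g := by
  rw [redT_of_mem R hf, redT_of_mem R hg, redT_of_mem R (R.V.add_mem hf hg), ← map_add]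
  rfl

theorem redT_sub {f g : F} (hf : f ∈ R.V) (hg : g ∈ R.V) :
    redT R (f - g) = redT R f - redT R g := by
  rw [redT_of_mem R hf, redT_of_mem R hg, redT_of_mem R (R.V.sub_mem hf hg), ← map_sub]
  rfl

theorem redT_mul {f g : F} (hf : f ∈ R.V) (hg : g ∈ R.V) :
    redT R (f * g) = redT R f * redT R g := by
  rw [redT_of_mem R hf, redT_of_mem R hg, redT_of_mem R (R.V.mul_mem hf hg), ← map_mul]
  rfl

theorem redT_pow {f : F} (hf : f ∈ R.V) (n : ℕ) : redT R (f ^ n) = redT R f ^ n := by
  induction n with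
  | zero => rw [pow_zero, pow_zero, redT_one]
  | succ n ih => rw [pow_succ, pow_succ, redT_mul R (R.V.pow_mem hf n) hf, ih]

theorem ne_zero_of_redT_ne_zero {f : F} (h : redT R f ≠ 0) : f ≠ 0 := by
  rintro rfl
  exact h (redT_zero R)

theorem mem_of_redT_ne_zero {f : F} (h : redT R f ≠ 0) : f ∈ R.V := by
  by_contra hf
  apply h
  unfold redT
  rw [dif_neg hf]

/-- `r_* div u = div (red u)`, in terms of `redT`. -/
theorem ord_redT [FF1 K F] {u : F} (hu : redT R u ≠ 0) (Q : Place k Fk) :
    Finsupp.mapDomain R.r (divOf u (ne_zero_of_redT_ne_zero R hu)) Q = Q.ord (redT R u) := by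
  have hV := mem_of_redT_ne_zero R hu
  have hu' : R.red ⟨u, hV⟩ ≠ 0 := by
    rw [← redT_of_mem R hV]; exact hu
  rw [redT_of_mem R hV]
  exact R.ord_red u hV hu' _ (fun P => divOf_apply u _ P) Q

end RedT

/-- An integral parameter at the place `P` on the residue disc of `P`. -/
structure BaseParam (R : RedDatum K F k Fk) where
  /-- the place (the cusp `∞`) -/
  P : Place K F
  /-- the parameter (`1 / j`) -/
  t : F
  t_mem : t ∈ R.V
  tinv_mem : t⁻¹ ∈ R.V
  ord_t : P.ord t = 1
  ord_red_t : (R.r P).ord (R.red ⟨t, t_mem⟩) = 1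
  reg : ∀ Q, R.r Q = R.r P → 0 ≤ Q.ord t

namespace BaseParam

variable {R : RedDatum K F k Fk} (B : BaseParam R)

theorem t_ne_zero : B.t ≠ 0 :=
  ne_zero_of_ord_ne_zero B.P (by rw [B.ord_t]; exact one_ne_zero)

theorem ord_redT_t : (R.r B.P).ord (redT R B.t) = 1 := by
  rw [redT_of_mem R B.t_mem]
  exact B.ord_red_t

theorem redT_t_ne_zero : redT R B.t ≠ 0 :=
  ne_zero_of_ord_ne_zero (R.r B.P) (by rw [B.ord_redT_t]; exact one_ne_zero)

theorem redT_t_mul_inv : redT R B.t⁻¹ * redT R B.t = 1 := by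
  rw [← redT_mul R B.tinv_mem B.t_mem, inv_mul_cancel₀ B.t_ne_zero, redT_one]

/-- `t` has neither zeros nor poles on the residue disc of `P`, except for the simple zero
at `P`. -/
theorem ord_t_eq_zero [FF1 K F] {Q : Place K F} (hQ : R.r Q = R.r B.P) (hne : Q ≠ B.P) :
    Q.ord B.t = 0 := by
  have h1 := ord_redT R B.redT_t_ne_zero (R.r B.P)
  rw [B.ord_redT_t] at h1
  have h2 := apply_add_apply_le_mapDomain R.r (divOf B.t (ne_zero_of_redT_ne_zero R B.redT_t_ne_zero))
    (R.r B.P) (fun P' hP' => by rw [divOf_apply]; exact B.reg P' hP') B.P Q (Ne.symm hne) rfl hQ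
  rw [h1, divOf_apply, divOf_apply, B.ord_t] at h2
  have h3 := B.reg Q hQ
  omega

theorem tinv_mem_place [FF1 K F] {Q : Place K F} (hQ : R.r Q = R.r B.P) (hne : Q ≠ B.P) :
    B.t⁻¹ ∈ Q.toValuationSubring := by
  apply mem_of_ord_nonneg
  rw [Q.ord_inv, B.ord_t_eq_zero hQ hne]
  simp

/-- `h` is integral and regular on the residue disc of `P`. -/
def IntReg (h : F) : Prop :=
  h ∈ R.V ∧ ∀ Q, R.r Q = R.r B.P → h ∈ Q.toValuationSubring

variable {B}

theorem IntReg.mem {h : F} (hh : B.IntReg h) : h ∈ R.V := hh.1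

theorem IntReg.mem_place {h : F} (hh : B.IntReg h) : h ∈ B.P.toValuationSubring := hh.2 B.P rfl

/-- One step of the Taylor expansion: the value is integral, the next jet is integral and
regular on the disc, and reduction commutes with the step. -/
theorem IntReg.step [FF1 K F] {h : F} (hh : B.IntReg h) :
    algebraMap K F (valAt B.P h) ∈ R.V ∧
      B.IntReg ((h - algebraMap K F (valAt B.P h)) * B.t⁻¹) ∧
      redT R ((h - algebraMap K F (valAt B.P h)) * B.t⁻¹) * redT R B.t =
        redT R h - redT R (algebraMap K F (valAt B.P h)) := by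
  have hP : B.P.deg = 1 := deg_eq_one B.P
  have hval := hasVal_valAt B.P hP hh.mem_place
  set c := valAt B.P h with hc
  have hreg : ∀ Q, R.r Q = R.r B.P → 0 ≤ Q.ord h := fun Q hQ => ord_nonneg_of_mem Q (hh.2 Q hQ)
  obtain ⟨hcV, -⟩ := R.max_principle B.P hh.1 hreg ((mem_nonunits_iff_ord B.P _).mp hval)
  have hxV : h - algebraMap K F c ∈ R.V := R.V.sub_mem hh.1 hcV
  have hyV : (h - algebraMap K F c) * B.t⁻¹ ∈ R.V := R.V.mul_mem hxV B.tinv_mem
  refine ⟨hcV, ⟨hyV, fun Q hQ => ?_⟩, ?_⟩
  · by_cases hQP : Q = B.P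
    · rw [hQP]
      exact mul_inv_mem_of_mem_nonunits B.P B.ord_t hval
    · exact mul_mem (sub_mem (hh.2 Q hQ) (Q.algebraMap_mem' c)) (B.tinv_mem_place hQ hQP)
  · rw [← redT_mul R hyV B.t_mem, ← redT_sub R hh.1 hcV]
    congr 1
    have := B.t_ne_zero
    field_simp

theorem intReg_jet [FF1 K F] {h : F} (hh : B.IntReg h) : ∀ i, B.IntReg (jet B.P B.t h i) := by
  intro i
  induction i with
  | zero => exact hh
  | succ i ih => exact ih.step.2.1

/-- **Theorem A**: the Taylor coefficients of an integral function which is regular on the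
residue disc are integral. -/
theorem jcoeff_mem [FF1 K F] {h : F} (hh : B.IntReg h) (i : ℕ) :
    algebraMap K F (jcoeff B.P B.t h i) ∈ R.V :=
  (intReg_jet hh i).step.1

theorem redT_jet_succ [FF1 K F] {h : F} (hh : B.IntReg h) (i : ℕ) :
    redT R (jet B.P B.t h (i + 1)) * redT R B.t =
      redT R (jet B.P B.t h i) - redT R (algebraMap K F (jcoeff B.P B.t h i)) :=
  (intReg_jet hh i).step.2.2

/-- If the first `n` coefficients reduce to zero, then `red h = red (jet n) * (red t) ^ n`. -/
theorem redT_eq_of_redT_jcoeff_eq_zero [FF1 K F] {h : F} (hh : B.IntReg h) (n : ℕ)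
    (h0 : ∀ i < n, redT R (algebraMap K F (jcoeff B.P B.t h i)) = 0) :
    redT R h = redT R (jet B.P B.t h n) * redT R B.t ^ n := by
  induction n with
  | zero => simp
  | succ n ih =>
    have h1 := ih (fun i hi => h0 i (Nat.lt_succ_of_lt hi))
    have h2 := redT_jet_succ hh n
    rw [h0 n (Nat.lt_succ_self n), sub_zero] at h2
    rw [h1, ← h2, pow_succ]
    ring

/-- The reduction of an integral function which is regular on the disc is regular at `r P`. -/
theorem IntReg.ord_redT_nonneg [FF1 K F] {h : F} (hh : B.IntReg h) (hne : redT R h ≠ 0) :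
    0 ≤ (R.r B.P).ord (redT R h) := by
  classical
  rw [← ord_redT R hne (R.r B.P), mapDomain_apply_eq_sum]
  refine Finset.sum_nonneg fun Q hQ => ?_
  rw [divOf_apply]
  exact ord_nonneg_of_mem Q (hh.2 Q (Finset.mem_filter.mp hQ).2)

variable (B)

/-- Elements of `L(m P) ∩ R.V`, multiplied by `t ^ m`, are integral and regular on the disc. -/
theorem intReg_mul_pow [FF1 K F] {f : F} (m : ℕ) (hfV : f ∈ R.V)
    (hfL : f ∈ riemannRochSpace (Finsupp.single B.P (m : ℤ))) : B.IntReg (f * B.t ^ m) := by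
  refine ⟨R.V.mul_mem hfV (R.V.pow_mem B.t_mem m), fun Q hQ => ?_⟩
  rcases eq_or_ne f 0 with rfl | hf0
  · rw [zero_mul]; exact zero_mem _
  have hL := (mem_L_iff.mp hfL Q).resolve_left hf0
  by_cases hQP : Q = B.P
  · rw [hQP] at hL ⊢
    apply mem_of_ord_nonneg
    rw [Finsupp.single_eq_same] at hL
    rw [B.P.ord_mul hf0 (pow_ne_zero m B.t_ne_zero), ord_pow, B.ord_t]
    omega
  · rw [Finsupp.single_eq_of_ne hQP] at hL
    have h1 : f ∈ Q.toValuationSubring := mem_of_ord_nonneg Q (by omega)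
    have h2 : B.t ∈ Q.toValuationSubring := mem_of_ord_nonneg Q (B.reg Q hQ)
    exact mul_mem h1 (pow_mem h2 m)

/-- **Theorem B**: if `f ∈ L(m P) ∩ R.V` has nonzero reduction then one of the coefficients
`c_0, …, c_m` of `f t^m` has nonzero reduction. -/
theorem exists_redT_jcoeff_ne_zero [FF1 K F] [FF1 k Fk] {f : F} (m : ℕ) (hfV : f ∈ R.V)
    (hfL : f ∈ riemannRochSpace (Finsupp.single B.P (m : ℤ))) (hred : redT R f ≠ 0) :
    ∃ i ≤ m, redT R (algebraMap K F (jcoeff B.P B.t (f * B.t ^ m) i)) ≠ 0 := by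
  classical
  by_contra hcon
  push Not at hcon
  have hf0 : f ≠ 0 := ne_zero_of_redT_ne_zero R hred
  have hh := B.intReg_mul_pow m hfV hfL
  have h1 := redT_eq_of_redT_jcoeff_eq_zero hh (m + 1)
    (fun i hi => hcon i (Nat.lt_succ_iff.mp hi))
  rw [redT_mul R hfV (R.V.pow_mem B.t_mem m), redT_pow R B.t_mem, pow_succ, ← mul_assoc] at h1
  have htm : redT R B.t ^ m ≠ 0 := pow_ne_zero m B.redT_t_ne_zero
  have h2 : redT R f = redT R (jet B.P B.t (f * B.t ^ m) (m + 1)) * redT R B.t := by
    have h3 : redT R f * redT R B.t ^ m =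
        (redT R (jet B.P B.t (f * B.t ^ m) (m + 1)) * redT R B.t) * redT R B.t ^ m := by
      rw [h1]; ring
    exact mul_right_cancel₀ htm h3
  set J := jet B.P B.t (f * B.t ^ m) (m + 1) with hJ
  have hJ0 : redT R J ≠ 0 := by
    intro h0
    rw [h0, zero_mul] at h2
    exact hred h2
  have hJreg : 0 ≤ (R.r B.P).ord (redT R J) := (intReg_jet hh (m + 1)).ord_redT_nonneg hJ0
  -- `red f` lies in `L(-(r P)) = 0`
  have hmem : redT R f ∈ riemannRochSpace (-prim (R.r B.P)) := by
    rw [mem_L_iff]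
    intro Q'
    right
    by_cases hQ' : Q' = R.r B.P
    · subst hQ'
      rw [Finsupp.neg_apply, neg_neg, prim_apply_self, h2,
        (R.r B.P).ord_mul hJ0 B.redT_t_ne_zero, B.ord_redT_t]
      omega
    · rw [Finsupp.neg_apply, neg_neg, prim_apply_of_ne hQ', ← ord_redT R hred Q',
        mapDomain_apply_eq_sum]
      refine Finset.sum_nonneg fun Q hQ => ?_
      rw [divOf_apply]
      have hQP : Q ≠ B.P := by
        rintro rfl
        exact hQ' (Finset.mem_filter.mp hQ).2.symm
      have hL := (mem_L_iff.mp hfL Q).resolve_left hf0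
      rw [Finsupp.single_eq_of_ne hQP] at hL
      omega
  have hbot : riemannRochSpace (-prim (R.r B.P)) = ⊥ :=
    L_eq_bot_of_degree_neg (by rw [map_neg, degree_prim']; norm_num)
  rw [hbot, Submodule.mem_bot] at hmem
  exact hred hmem

end BaseParam

end Fermat.Agent.S19.H439
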