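import Fermat.Agent.S19.H439.BaseNorm
import Fermat.Agent.S19.H495.Saturated

/-!
# Cell A3 / GR-BASE (helper439): `L(m P∞)` has an invariant orthonormal basis

`R : H195.RedDatum K F k Fk` with the scaling axiom `hscale` (= `GoodRed.gauss`), and
`B : BaseParam R` an integral parameter `t` at a place `P` (see `BaseNorm.lean`).

* `BaseParam.coeffLin m`  : the `K`-linear map `L(m P) → K^(m+1)`, `f ↦ (c_i (f t^m))_{i ≤ m}`
                            (principal part and constant term of the `t`-expansion);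
* `BaseParam.mem_of_coeff_mem`  : `f ∈ L(m P)` is integral iff its coefficients are (⇐);
* `BaseParam.redT_jcoeff_eq_zero` : `red f = 0` implies that all coefficients reduce to `0`;
* `BaseParam.coeffLin_injective`;
* `BaseParam.exists_orthonormal_base` : (**GR-BASE**) for every `m`, `L(m P)` has a `K`-basis
  `b₁, …, b_n` in `R.V` with `k`-linearly independent reductions, and every `b_i` is fixed by
  every semilinear automorphism of `F / K` fixing `P` and `t`.
-/

set_option autoImplicit false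

noncomputable section

namespace Fermat.Agent.S19.H439

open AlgebraicCurve Fermat.Agent.Lib.RR Fermat.Agent.A3.H75 Fermat.Agent.S19.H195

universe u₁ u₂ u₃ u₄

variable {K : Type u₁} {F : Type u₂} {k : Type u₃} {Fk : Type u₄}
  [Field K] [Field F] [Algebra K F] [Field k] [Field Fk] [Algebra k Fk]

/-- The valuation ring of the constants: `{a ∈ K | a ∈ R.V}`. -/
def constRing (R : RedDatum K F k Fk) : ValuationSubring K :=
  { R.V.comap (algebraMap K F) with
    mem_or_inv_mem' := fun a => R.const_total a }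

theorem mem_constRing (R : RedDatum K F k Fk) (a : K) :
    a ∈ constRing R ↔ algebraMap K F a ∈ R.V := Iff.rfl

/-- The scaling axiom (`GoodRed.gauss`). -/
def Scale (R : RedDatum K F k Fk) : Prop :=
  ∀ f : F, f ≠ 0 → ∃ c : K, c ≠ 0 ∧ ∃ h : algebraMap K F c * f ∈ R.V, R.red ⟨_, h⟩ ≠ 0

theorem Scale.exists_redT {R : RedDatum K F k Fk} (hs : Scale R) {f : F} (hf : f ≠ 0) :
    ∃ c : K, c ≠ 0 ∧ algebraMap K F c * f ∈ R.V ∧ redT R (algebraMap K F c * f) ≠ 0 := by
  obtain ⟨c, hc, h, hred⟩ := hs f hf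
  exact ⟨c, hc, h, by rw [redT_of_mem R h]; exact hred⟩

/-- A constant outside the Gauss ring has its inverse in the maximal ideal. -/
theorem redT_inv_eq_zero (R : RedDatum K F k Fk) {c : K} (hc : algebraMap K F c ∉ R.V) :
    algebraMap K F c⁻¹ ∈ R.V ∧ redT R (algebraMap K F c⁻¹) = 0 := by
  obtain ⟨h, h0⟩ := R.red_inv_eq_zero hc
  exact ⟨h, by rw [redT_of_mem R h]; exact h0⟩

namespace BaseParam

variable {R : RedDatum K F k Fk} (B : BaseParam R)

/-- The divisor `m • P`. -/
abbrev Dm (m : ℕ) : Divisor K F := Finsupp.single B.P (m : ℤ)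

theorem mul_pow_mem_place {f : F} (m : ℕ) (hfL : f ∈ riemannRochSpace (B.Dm m)) :
    f * B.t ^ m ∈ B.P.toValuationSubring := by
  rcases eq_or_ne f 0 with rfl | hf0
  · rw [zero_mul]; exact zero_mem _
  have hL := (mem_L_iff.mp hfL B.P).resolve_left hf0
  rw [Finsupp.single_eq_same] at hL
  apply mem_of_ord_nonneg
  rw [B.P.ord_mul hf0 (pow_ne_zero m B.t_ne_zero), ord_pow, B.ord_t]
  omega

/-- The coefficients `c_0, …, c_m` of `f t^m`, as a linear map on `L(m P)`. -/
def coeffLin [FF1 K F] (m : ℕ) : riemannRochSpace (B.Dm m) →ₗ[K] (Fin (m + 1) → K) where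
  toFun f i := jcoeff B.P B.t ((f : F) * B.t ^ m) (i : ℕ)
  map_add' f g := by
    funext i
    show jcoeff B.P B.t (((f + g : riemannRochSpace (B.Dm m)) : F) * B.t ^ m) (i : ℕ) = _
    rw [Submodule.coe_add, add_mul]
    exact jcoeff_add B.P (deg_eq_one B.P) B.ord_t (B.mul_pow_mem_place m f.2)
      (B.mul_pow_mem_place m g.2) _
  map_smul' a f := by
    funext i
    show jcoeff B.P B.t (((a • f : riemannRochSpace (B.Dm m)) : F) * B.t ^ m) (i : ℕ) = _
    rw [Submodule.coe_smul, Algebra.smul_def, mul_assoc]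
    exact jcoeff_mul_const B.P (deg_eq_one B.P) B.ord_t a (B.mul_pow_mem_place m f.2) _

theorem coeffLin_apply [FF1 K F] (m : ℕ) (f : riemannRochSpace (B.Dm m)) (i : Fin (m + 1)) :
    B.coeffLin m f i = jcoeff B.P B.t ((f : F) * B.t ^ m) (i : ℕ) := rfl

theorem smul_mem_Dm {f : F} (m : ℕ) (hfL : f ∈ riemannRochSpace (B.Dm m)) (a : K) :
    algebraMap K F a * f ∈ riemannRochSpace (B.Dm m) := by
  have := (riemannRochSpace (B.Dm m)).smul_mem a hfL
  rwa [Algebra.smul_def] at this

theorem jcoeff_const_mul [FF1 K F] {f : F} (m : ℕ) (hfL : f ∈ riemannRochSpace (B.Dm m))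
    (a : K) (i : ℕ) :
    jcoeff B.P B.t (algebraMap K F a * f * B.t ^ m) i = a * jcoeff B.P B.t (f * B.t ^ m) i := by
  rw [mul_assoc]
  exact jcoeff_mul_const B.P (deg_eq_one B.P) B.ord_t a (B.mul_pow_mem_place m hfL) i

/-- Integral elements of `L(m P)` have integral coefficients. -/
theorem jcoeff_mem_of_mem [FF1 K F] {f : F} (m : ℕ) (hfV : f ∈ R.V)
    (hfL : f ∈ riemannRochSpace (B.Dm m)) (i : ℕ) :
    algebraMap K F (jcoeff B.P B.t (f * B.t ^ m) i) ∈ R.V :=
  jcoeff_mem (B.intReg_mul_pow m hfV hfL) i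

/-- If `red f = 0` then all coefficients reduce to `0`. -/
theorem redT_jcoeff_eq_zero [FF1 K F] (hs : Scale R) {f : F} (m : ℕ) (hfV : f ∈ R.V)
    (hfL : f ∈ riemannRochSpace (B.Dm m)) (hred : redT R f = 0) (i : ℕ) :
    redT R (algebraMap K F (jcoeff B.P B.t (f * B.t ^ m) i)) = 0 := by
  rcases eq_or_ne f 0 with rfl | hf0
  · have h0 := jcoeff_mul_const B.P (deg_eq_one B.P) B.ord_t (0 : K)
      (zero_mem _ : (0 : F) ∈ B.P.toValuationSubring) i
    rw [map_zero, zero_mul, zero_mul] at h0
    rw [zero_mul, h0, map_zero, redT_zero]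
  obtain ⟨a, ha0, haV, hared⟩ := hs.exists_redT hf0
  have haK : algebraMap K F a ∉ R.V := by
    intro h
    apply hared
    rw [redT_mul R h hfV, hred, mul_zero]
  obtain ⟨hinvV, hinv0⟩ := redT_inv_eq_zero R haK
  have hafL := B.smul_mem_Dm m hfL a
  have e : f = algebraMap K F a⁻¹ * (algebraMap K F a * f) := by
    rw [← mul_assoc, ← map_mul, inv_mul_cancel₀ ha0, map_one, one_mul]
  have h1 := B.jcoeff_const_mul m hafL a⁻¹ i
  rw [← e] at h1
  rw [h1, map_mul, redT_mul R hinvV (B.jcoeff_mem_of_mem m haV hafL i), hinv0, zero_mul]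

/-- An element of `L(m P)` whose coefficients `c_0, …, c_m` are integral is integral. -/
theorem mem_of_coeff_mem [FF1 K F] [FF1 k Fk] (hs : Scale R) {f : F} (m : ℕ)
    (hfL : f ∈ riemannRochSpace (B.Dm m))
    (hc : ∀ i ≤ m, algebraMap K F (jcoeff B.P B.t (f * B.t ^ m) i) ∈ R.V) : f ∈ R.V := by
  rcases eq_or_ne f 0 with rfl | hf0
  · exact R.V.zero_mem
  obtain ⟨a, ha0, haV, hared⟩ := hs.exists_redT hf0
  have hafL := B.smul_mem_Dm m hfL a
  obtain ⟨i, hi, hu⟩ := B.exists_redT_jcoeff_ne_zero m haV hafL hared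
  rw [B.jcoeff_const_mul m hfL a i] at hu
  set c := jcoeff B.P B.t (f * B.t ^ m) i with hcdef
  have huV : algebraMap K F (a * c) ∈ R.V := mem_of_redT_ne_zero R hu
  have hu' : R.red ⟨_, huV⟩ ≠ 0 := by
    rw [← redT_of_mem R huV]; exact hu
  have hinv := R.red_const_unit (a * c) huV hu'
  have hc0 : c ≠ 0 := by
    intro h0
    apply hu
    rw [h0, mul_zero, map_zero, redT_zero]
  have hainv : algebraMap K F a⁻¹ ∈ R.V := by
    have e : a⁻¹ = c * (a * c)⁻¹ := by
      field_simp
    rw [e, map_mul]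
    exact R.V.mul_mem (hc i hi) hinv
  have e : f = algebraMap K F a⁻¹ * (algebraMap K F a * f) := by
    rw [← mul_assoc, ← map_mul, inv_mul_cancel₀ ha0, map_one, one_mul]
  rw [e]
  exact R.V.mul_mem hainv haV

/-- The coefficient map is injective on `L(m P)`. -/
theorem coeffLin_injective [FF1 K F] [FF1 k Fk] (hs : Scale R) (m : ℕ) :
    Function.Injective (B.coeffLin m) := by
  rw [← LinearMap.ker_eq_bot, LinearMap.ker_eq_bot']
  intro f hf
  by_contra hne
  have hf0 : (f : F) ≠ 0 := fun h => hne (Subtype.ext h)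
  obtain ⟨a, ha0, haV, hared⟩ := hs.exists_redT hf0
  have hafL := B.smul_mem_Dm m f.2 a
  obtain ⟨i, hi, hu⟩ := B.exists_redT_jcoeff_ne_zero m haV hafL hared
  rw [B.jcoeff_const_mul m f.2 a i] at hu
  have h0 : jcoeff B.P B.t ((f : F) * B.t ^ m) i = 0 := by
    have := congrFun hf ⟨i, Nat.lt_succ_of_le hi⟩
    exact this
  apply hu
  rw [h0, mul_zero, map_zero, redT_zero]

/-- `L(m P)` is stable under semilinear automorphisms fixing `P`. -/
theorem smul_aut_mem_Dm (m : ℕ) (g : SemilinearAut K F) (hgP : g • B.P = B.P) {f : F}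
    (hfL : f ∈ riemannRochSpace (B.Dm m)) : g • f ∈ riemannRochSpace (B.Dm m) := by
  rw [mem_L_iff] at hfL ⊢
  intro v
  rcases hfL (g⁻¹ • v) with h0 | h1
  · left
    rw [h0, smul_zero]
  · right
    have e1 : v.ord (g • f) = (g⁻¹ • v).ord f := by
      have := SemilinearAut.ord_smul g (g⁻¹ • v) f
      rwa [smul_inv_smul] at this
    have e2 : B.Dm m v = B.Dm m (g⁻¹ • v) := by
      by_cases hv : v = B.P
      · have : g⁻¹ • v = B.P := by
          rw [hv, inv_smul_eq_iff, hgP]
        rw [this, hv]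
      · have : g⁻¹ • v ≠ B.P := by
          intro h
          apply hv
          rw [inv_smul_eq_iff, hgP] at h
          exact h
        show (Finsupp.single B.P (m : ℤ)) v = (Finsupp.single B.P (m : ℤ)) (g⁻¹ • v)
        rw [Finsupp.single_eq_of_ne hv, Finsupp.single_eq_of_ne this]
    rw [e1, e2]
    exact h1

/-- **GR-BASE**: `L(m P)` has an orthonormal basis which is fixed by every semilinear
automorphism fixing `P` and `t`. -/
theorem exists_orthonormal_base [FF1 K F] [FF1 k Fk] (hs : Scale R) (m : ℕ) :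
    ∃ (n : ℕ) (b : Fin n → F) (hb : ∀ i, b i ∈ R.V),
      LinearIndependent k (fun i => R.red ⟨b i, hb i⟩) ∧
      (∀ i, b i ∈ riemannRochSpace (B.Dm m)) ∧
      Submodule.span K (Set.range b) = riemannRochSpace (B.Dm m) ∧
      ∀ g : SemilinearAut K F, g • B.P = B.P → g • B.t = B.t → ∀ i, g • b i = b i := by
  classical
  set T := B.coeffLin m with hT
  have hTinj := B.coeffLin_injective hs m
  set W : Submodule K (Fin (m + 1) → K) := LinearMap.range T with hW
  obtain ⟨M, p, hMint, hMp, hMrange⟩ :=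
    H495.exists_integral_basis_matrix (constRing R).valuation W
  -- the columns are in the range of `T`
  have hcol : ∀ a : Fin (Module.finrank K W), ∃ f : riemannRochSpace (B.Dm m), T f = fun i => M i a := by
    intro a
    have h1 : (fun i => M i a) ∈ LinearMap.range M.mulVecLin := by
      refine ⟨Pi.single a 1, ?_⟩
      funext i
      simp
    rw [hMrange] at h1
    exact h1
  choose f hf using hcol
  -- pivot values determine elements of `W`
  have hpiv : ∀ x y : riemannRochSpace (B.Dm m), (∀ a, T x (p a) = T y (p a)) → x = y := by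
    intro x y hxy
    apply hTinj
    have hx : T x ∈ LinearMap.range M.mulVecLin := by rw [hMrange]; exact ⟨x, rfl⟩
    have hy : T y ∈ LinearMap.range M.mulVecLin := by rw [hMrange]; exact ⟨y, rfl⟩
    obtain ⟨cx, hcx⟩ := hx
    obtain ⟨cy, hcy⟩ := hy
    rw [Matrix.mulVecLin_apply] at hcx hcy
    have : cx = cy := by
      funext a
      rw [H495.coeff_eq_of_submatrix_eq_one M p hMp cx a,
        H495.coeff_eq_of_submatrix_eq_one M p hMp cy a, hcx, hcy]
      exact hxy a
    rw [← hcx, ← hcy, this]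
  have hfp : ∀ a a' : Fin (Module.finrank K W), T (f a) (p a') = if a' = a then 1 else 0 := by
    intro a a'
    rw [hf a]
    have := congrFun (congrFun hMp a') a
    rw [Matrix.submatrix_apply, Matrix.one_apply, id] at this
    exact this
  -- integrality
  have hfV : ∀ a, ((f a : riemannRochSpace (B.Dm m)) : F) ∈ R.V := by
    intro a
    refine B.mem_of_coeff_mem hs m (f a).2 (fun i hi => ?_)
    have h1 : T (f a) ⟨i, Nat.lt_succ_of_le hi⟩ = M ⟨i, Nat.lt_succ_of_le hi⟩ a :=
      congrFun (hf a) _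
    have h2 : jcoeff B.P B.t (((f a : riemannRochSpace (B.Dm m)) : F) * B.t ^ m) i =
        M ⟨i, Nat.lt_succ_of_le hi⟩ a := h1
    rw [h2]
    exact ((constRing R).valuation_le_one_iff _).mp (hMint _ a)
  refine ⟨Module.finrank K W, fun a => (f a : F), hfV, ?_, fun a => (f a).2, ?_, ?_⟩
  · -- linear independence of the reductions
    rw [Fintype.linearIndependent_iff]
    intro lam hlam a₀
    have hlift : ∀ a, ∃ (c : K) (h : algebraMap K F c ∈ R.V),
        R.red ⟨_, h⟩ = algebraMap k Fk (lam a) := fun a => R.red_const_surj (lam a)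
    choose c hcV hcred using hlift
    let G : riemannRochSpace (B.Dm m) := ∑ a, c a • f a
    have hGcoe : (G : F) = ∑ a, algebraMap K F (c a) * (f a : F) := by
      simp only [G, Submodule.coe_sum, Submodule.coe_smul, Algebra.smul_def]
    have hGV : (G : F) ∈ R.V := by
      rw [hGcoe]
      exact R.V.sum_mem fun a _ => R.V.mul_mem (hcV a) (hfV a)
    have hGred : redT R (G : F) = 0 := by
      rw [redT_of_mem R hGV]
      have e : (⟨(G : F), hGV⟩ : R.V) = ∑ a, (⟨_, hcV a⟩ : R.V) * ⟨(f a : F), hfV a⟩ := by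
        apply Subtype.ext
        show (G : F) = R.V.subtype (∑ a, (⟨_, hcV a⟩ : R.V) * ⟨(f a : F), hfV a⟩)
        rw [map_sum, hGcoe]
        rfl
      rw [e, map_sum, ← hlam]
      refine Finset.sum_congr rfl fun a _ => ?_
      rw [map_mul, hcred a, Algebra.smul_def]
    have h1 := B.redT_jcoeff_eq_zero hs m hGV G.2 hGred (p a₀ : ℕ)
    have h2 : jcoeff B.P B.t ((G : F) * B.t ^ m) (p a₀ : ℕ) = c a₀ := by
      have h3 : T G (p a₀) = ∑ a, c a * T (f a) (p a₀) := by
        simp only [G, map_sum, map_smul, Finset.sum_apply, Pi.smul_apply, smul_eq_mul]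
      have h4 : T G (p a₀) = c a₀ := by
        rw [h3]
        simp only [hfp]
        simp
      exact h4
    rw [h2, redT_of_mem R (hcV a₀), hcred a₀] at h1
    exact (map_eq_zero _).mp h1
  · -- span
    apply le_antisymm
    · rw [Submodule.span_le]
      rintro _ ⟨a, rfl⟩
      exact (f a).2
    · intro x hx
      have hTx : T ⟨x, hx⟩ ∈ LinearMap.range M.mulVecLin := by rw [hMrange]; exact ⟨_, rfl⟩
      obtain ⟨cx, hcx⟩ := hTx
      rw [Matrix.mulVecLin_apply] at hcx
      have hsum : (⟨x, hx⟩ : riemannRochSpace (B.Dm m)) = ∑ a, cx a • f a := by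
        apply hTinj
        rw [← hcx, map_sum]
        funext i
        simp only [map_smul, Finset.sum_apply, Pi.smul_apply, smul_eq_mul, Matrix.mulVec,
          dotProduct]
        refine Finset.sum_congr rfl fun a _ => ?_
        rw [hf a, mul_comm]
      have hx' : x = ∑ a, cx a • (f a : F) := by
        have := congrArg (fun z : riemannRochSpace (B.Dm m) => (z : F)) hsum
        simpa using this
      rw [hx']
      exact Submodule.sum_mem _ fun a _ =>
        Submodule.smul_mem _ _ (Submodule.subset_span ⟨a, rfl⟩)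
  · -- invariance
    intro g hgP hgt a
    have hgL := B.smul_aut_mem_Dm m g hgP (f a).2
    have key : (⟨g • (f a : F), hgL⟩ : riemannRochSpace (B.Dm m)) = f a := by
      apply hpiv
      intro a'
      have e1 : T ⟨g • (f a : F), hgL⟩ (p a') =
          jcoeff B.P B.t (g • ((f a : F) * B.t ^ m)) (p a' : ℕ) := by
        show jcoeff B.P B.t ((g • (f a : F)) * B.t ^ m) (p a' : ℕ) = _
        rw [smul_mul', smul_pow', hgt]
      rw [e1, jcoeff_smul_aut B.P (deg_eq_one B.P) B.ord_t g hgP hgt
        (B.mul_pow_mem_place m (f a).2)]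
      have e2 : jcoeff B.P B.t ((f a : F) * B.t ^ m) (p a' : ℕ) = T (f a) (p a') := rfl
      rw [e2, hfp]
      split_ifs
      · exact map_one _
      · exact map_zero _
    exact congrArg Subtype.val key

end BaseParam

end Fermat.Agent.S19.H439
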