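import Fermat.Agent.A3.H799.GoodRed
import Fermat.Agent.A3.H499.Orth
import Fermat.Agent.S19.H439.BaseOrth

/-!
# Cell A3 / GR (helper439): `GoodRed` from its core fields and one integral parameter

The field `orthonormal` of the frozen interface `A3.H799.GoodRed` is DERIVED here from the other
fields and one invariant integral parameter at an invariant place:

* `GoodRedCore K F k Fk` : all fields of `GoodRed` except `orthonormal` (and `I_fixed_place`);
* `GoodRedCore.Param`    : a place `P` fixed by `I` and `t ∈ O` fixed by `I` with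
                           `ord_P t = 1 = ord_{r P} (red t)` and no poles on the residue disc
                           of `P` (modular instance: `P` = cusp `∞`, `t = 1 / j`);
* `GoodRedCore.orthonormal` : the field `orthonormal`, verbatim, for all divisors
                           (= `H439.BaseParam.exists_orthonormal_base` (base case `L(m P)`) +
                           `A3.H499.orthonormal_of_base_subgroup` (all divisors));
* `GoodRedCore.toGoodRed`   : the resulting `GoodRed`, with the same `V O res red r I`.
-/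

set_option autoImplicit false

noncomputable section

namespace Fermat.Agent.S19.H439

open AlgebraicCurve Fermat.Agent.Lib.RR Fermat.Agent.A3.H799

universe u₁ u₂ u₃ u₄

/-- All fields of `A3.H799.GoodRed` except `orthonormal` and `I_fixed_place`. -/
structure GoodRedCore (K : Type u₁) (F : Type u₂) (k : Type u₃) (Fk : Type u₄)
    [Field K] [Field F] [Algebra K F] [Field k] [Field Fk] [Algebra k Fk] where
  /-- the valuation ring of the constants -/
  V : ValuationSubring K
  /-- the Gauss valuation ring of `F` -/
  O : ValuationSubring F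
  /-- the residue map of `V` -/
  res : V →+* k
  /-- reduction of functions -/
  red : O →+* Fk
  /-- reduction of places -/
  r : Place K F → Place k Fk
  /-- the inertia group, acting semilinearly -/
  I : Subgroup (SemilinearAut K F)
  res_surjective : Function.Surjective res
  res_eq_zero : ∀ a : V, res a = 0 ↔ (a : K) ∈ V.nonunits
  algebraMap_mem : ∀ a : K, algebraMap K F a ∈ O ↔ a ∈ V
  red_algebraMap : ∀ (a : V) (h : algebraMap K F (a : K) ∈ O),
    red ⟨algebraMap K F (a : K), h⟩ = algebraMap k Fk (res a)
  red_surjective : Function.Surjective red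
  gauss : ∀ f : F, f ≠ 0 → ∃ a : K, a ≠ 0 ∧ ∃ h : algebraMap K F a * f ∈ O,
    red ⟨algebraMap K F a * f, h⟩ ≠ 0
  div_red : ∀ f : O, red f ≠ 0 → ∀ D : Divisor K F, (∀ P, D P = P.ord (f : F)) →
    ∀ Q : Place k Fk, Finsupp.mapDomain r D Q = Q.ord (red f)
  ff1 : Lib.RR.FF1 K F
  ff1k : Lib.RR.FF1 k Fk
  genus_eq : genusFF K F = genusFF k Fk
  I_base : ∀ g ∈ I, ∀ a : V, ∃ h : SemilinearAut.baseAut g (a : K) ∈ V,
    res ⟨SemilinearAut.baseAut g (a : K), h⟩ = res a
  I_red : ∀ g ∈ I, ∀ f : O, ∃ h : g • (f : F) ∈ O, red ⟨g • (f : F), h⟩ = red f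
  I_place : ∀ g ∈ I, ∀ P : Place K F, r (g • P) = r P
  I_lift_const : ∀ c : k, ∃ a : V, res a = c ∧ ∀ g ∈ I, SemilinearAut.baseAut g (a : K) = (a : K)

variable {K : Type u₁} {F : Type u₂} {k : Type u₃} {Fk : Type u₄}
  [Field K] [Field F] [Algebra K F] [Field k] [Field Fk] [Algebra k Fk]

namespace GoodRedCore

variable (C : GoodRedCore K F k Fk)

/-- The light reduction datum (`S19.H195.RedDatum`) underlying the core fields. -/
def toRedDatum : H195.RedDatum K F k Fk where
  V := C.O.toSubring
  red := C.red
  r := C.r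
  const_total := fun a => by
    rcases C.O.mem_or_inv_mem (algebraMap K F a) with h | h
    · exact Or.inl h
    · right
      rw [map_inv₀]
      exact h
  red_const := fun a h =>
    ⟨C.res ⟨a, (C.algebraMap_mem a).mp h⟩, C.red_algebraMap ⟨a, (C.algebraMap_mem a).mp h⟩ h⟩
  red_const_surj := fun b => by
    obtain ⟨a, ha⟩ := C.res_surjective b
    have h : algebraMap K F (a : K) ∈ C.O := (C.algebraMap_mem a).mpr a.2
    exact ⟨a, h, by rw [← ha]; exact C.red_algebraMap a h⟩
  red_const_unit := fun a h hne => by
    have h1 := A3.H499.inv_mem_of_red_ne_zero C.O C.red C.red_surjective ⟨_, h⟩ hne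
    rw [map_inv₀]
    exact h1
  ord_red := fun u hu hne D hD Q => C.div_red ⟨u, hu⟩ hne D hD Q

theorem scale : Scale C.toRedDatum := fun f hf => C.gauss f hf

/-- An invariant integral parameter at an invariant place. -/
structure Param where
  /-- the place (the cusp `∞`) -/
  P : Place K F
  /-- the parameter (`1 / j`) -/
  t : C.O
  ord_t : P.ord (t : F) = 1
  ord_red_t : (C.r P).ord (C.red t) = 1
  reg : ∀ Q, C.r Q = C.r P → 0 ≤ Q.ord (t : F)
  fixed_P : ∀ g ∈ C.I, g • P = P
  fixed_t : ∀ g ∈ C.I, g • (t : F) = (t : F)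

variable {C}

/-- The `BaseParam` of a parameter. -/
def Param.toBaseParam (T : C.Param) : BaseParam C.toRedDatum where
  P := T.P
  t := (T.t : F)
  t_mem := T.t.2
  tinv_mem := by
    have hne : C.red T.t ≠ 0 :=
      ne_zero_of_ord_ne_zero (C.r T.P) (by rw [T.ord_red_t]; exact one_ne_zero)
    exact A3.H499.inv_mem_of_red_ne_zero C.O C.red C.red_surjective T.t hne
  ord_t := T.ord_t
  ord_red_t := T.ord_red_t
  reg := T.reg

/-- **The field `orthonormal` of `GoodRed`**, from the core fields and a parameter. -/
theorem orthonormal (T : C.Param) :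
    ∀ D : Divisor K F, ∃ (n : ℕ) (b : Fin n → C.O),
      LinearIndependent k (fun i => C.red (b i)) ∧
      (∀ i, ((b i : C.O) : F) ∈ riemannRochSpace D) ∧
      Submodule.span K (Set.range fun i => ((b i : C.O) : F)) = riemannRochSpace D ∧
      ((∀ g ∈ C.I, g • D = D) → ∀ i, ∀ g ∈ C.I, g • ((b i : C.O) : F) = ((b i : C.O) : F)) := by
  have := C.ff1
  have := C.ff1k
  refine A3.H499.orthonormal_of_base_subgroup C.V C.O C.res C.red
    (fun a ha => (C.algebraMap_mem a).mpr ha) C.red_algebraMap C.red_surjective
    (Finsupp.single T.P (1 : ℤ)) ?_ C.I ?_ ?_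
  · have : Divisor.degree (Finsupp.single T.P (1 : ℤ)) = 1 := degree_prim' T.P
    rw [this]
    exact one_pos
  · intro g hg
    rw [SemilinearAut.smul_single, T.fixed_P g hg]
  · intro m₀
    refine ⟨m₀, le_rfl, ?_⟩
    obtain ⟨n, b, hb, hli, hmem, hspan, hfix⟩ :=
      T.toBaseParam.exists_orthonormal_base C.scale m₀
    have hD : (m₀ • Finsupp.single T.P (1 : ℤ) : Divisor K F) = T.toBaseParam.Dm m₀ := by
      rw [Finsupp.smul_single]
      simp [BaseParam.Dm, Param.toBaseParam]
    rw [hD]
    refine ⟨n, fun i => ⟨b i, hb i⟩, ⟨hli, hmem, hspan⟩, fun g hg i => ?_⟩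
    exact hfix g (T.fixed_P g hg) (T.fixed_t g hg) i

variable (C)

/-- **`GoodRed` from its core fields and one invariant integral parameter.** -/
def toGoodRed (T : C.Param) : GoodRed K F k Fk where
  V := C.V
  O := C.O
  res := C.res
  red := C.red
  r := C.r
  I := C.I
  res_surjective := C.res_surjective
  res_eq_zero := C.res_eq_zero
  algebraMap_mem := C.algebraMap_mem
  red_algebraMap := C.red_algebraMap
  red_surjective := C.red_surjective
  gauss := C.gauss
  div_red := C.div_red
  ff1 := C.ff1
  ff1k := C.ff1k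
  genus_eq := C.genus_eq
  orthonormal := C.orthonormal T
  I_base := C.I_base
  I_red := C.I_red
  I_place := C.I_place
  I_lift_const := C.I_lift_const
  I_fixed_place := ⟨T.P, T.fixed_P⟩

@[simp] theorem toGoodRed_V (T : C.Param) : (C.toGoodRed T).V = C.V := rfl
@[simp] theorem toGoodRed_O (T : C.Param) : (C.toGoodRed T).O = C.O := rfl
@[simp] theorem toGoodRed_I (T : C.Param) : (C.toGoodRed T).I = C.I := rfl
@[simp] theorem toGoodRed_r (T : C.Param) : (C.toGoodRed T).r = C.r := rfl

end GoodRedCore

end Fermat.Agent.S19.H439
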