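import Fermat.Agent.S19.H439.GoodRedOfParam

/-!
# Cell A3 / GR (helper439): the parameter of `GoodRedOfParam` from a RESIDUAL place

To apply `GoodRedCore.toGoodRed` one needs an `I`-fixed place `P` of `F` and an `I`-invariant
`t ∈ O` which is a parameter at `P` and at `r P`, without poles on the disc of `r P`.
Here the place `P` is PRODUCED from a place `Q₀` of the special fibre:

* `GoodRedCore.exists_param` : if `t ∈ O` is `I`-invariant, `ord_{Q₀} (red t) = 1` and `t` has no
  pole on the disc `r⁻¹(Q₀)`, then there is a (unique) zero `P` of `t` on this disc; it is simple,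
  `I`-fixed, and `(P, t)` is a `GoodRedCore.Param`.
* `GoodRedCore.goodRedOfPlace` : the resulting `GoodRed` (same `V O res red r I`).

Modular instance: `t = 1 / j` (integral `q`-expansion `q - 744 q² + …`, rational coefficients),
`Q₀` = the place `ord_q` of `F_{N,k} ⊆ k((q))`; the regularity hypothesis says that no zero of `j`
specialises to the cusp `∞̄` (evaluation compatibility of `r` for the coordinate `j`).
No identification of `r (cusp ∞)` is needed.
-/

set_option autoImplicit false

noncomputable section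

namespace Fermat.Agent.S19.H439

open AlgebraicCurve Fermat.Agent.Lib.RR Fermat.Agent.A3.H799 Fermat.Agent.A3.H75

universe u₁ u₂ u₃ u₄

variable {K : Type u₁} {F : Type u₂} {k : Type u₃} {Fk : Type u₄}
  [Field K] [Field F] [Algebra K F] [Field k] [Field Fk] [Algebra k Fk]

namespace GoodRedCore

variable (C : GoodRedCore K F k Fk)

/-- **A parameter from a residual place.** -/
theorem exists_param (t : C.O) (ht : ∀ g ∈ C.I, g • (t : F) = (t : F))
    (Q₀ : Place k Fk) (hQ₀ : Q₀.ord (C.red t) = 1)
    (reg : ∀ P, C.r P = Q₀ → 0 ≤ P.ord (t : F)) :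
    ∃ T : C.Param, T.t = t ∧ C.r T.P = Q₀ := by
  classical
  have := C.ff1
  have hred : C.red t ≠ 0 := ne_zero_of_ord_ne_zero Q₀ (by rw [hQ₀]; exact one_ne_zero)
  have ht0 : (t : F) ≠ 0 := by
    intro h0
    apply hred
    have : t = 0 := Subtype.ext h0
    rw [this, map_zero]
  have hD := C.div_red t hred (divOf (t : F) ht0) (fun P => divOf_apply _ ht0 P) Q₀
  rw [hQ₀] at hD
  have hnn : ∀ P, C.r P = Q₀ → 0 ≤ divOf (t : F) ht0 P := fun P hP => by
    rw [divOf_apply]; exact reg P hP
  obtain ⟨P, hPQ, hPpos⟩ := exists_pos_of_mapDomain_pos C.r (divOf (t : F) ht0) Q₀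
    (by rw [hD]; exact one_pos)
  have hPle := apply_le_mapDomain C.r (divOf (t : F) ht0) Q₀ hnn P hPQ
  rw [hD] at hPle
  rw [divOf_apply] at hPpos hPle
  have hord : P.ord (t : F) = 1 := le_antisymm hPle hPpos
  -- uniqueness of the zero on the disc
  have huniq : ∀ P', C.r P' = Q₀ → 0 < P'.ord (t : F) → P' = P := by
    intro P' hP' hpos
    by_contra hne
    have h2 := apply_add_apply_le_mapDomain C.r (divOf (t : F) ht0) Q₀ hnn P' P hne hP' hPQ
    rw [hD, divOf_apply, divOf_apply, hord] at h2
    omega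
  refine ⟨{ P := P
            t := t
            ord_t := hord
            ord_red_t := by rw [hPQ]; exact hQ₀
            reg := fun Q hQ => reg Q (hQ.trans hPQ)
            fixed_P := fun g hg => ?_
            fixed_t := ht }, rfl, hPQ⟩
  apply huniq
  · rw [C.I_place g hg P, hPQ]
  · have h1 := SemilinearAut.ord_smul g P (t : F)
    rw [ht g hg] at h1
    rw [h1, hord]
    exact one_pos

/-- **`GoodRed` from its core fields, an invariant integral function `t` and a place `Q₀` of the
special fibre at which `red t` is a parameter** (`t` without poles on the disc of `Q₀`). -/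
def goodRedOfPlace (t : C.O) (ht : ∀ g ∈ C.I, g • (t : F) = (t : F))
    (Q₀ : Place k Fk) (hQ₀ : Q₀.ord (C.red t) = 1)
    (reg : ∀ P, C.r P = Q₀ → 0 ≤ P.ord (t : F)) : GoodRed K F k Fk :=
  C.toGoodRed (C.exists_param t ht Q₀ hQ₀ reg).choose

section

variable (t : C.O) (ht : ∀ g ∈ C.I, g • (t : F) = (t : F))
  (Q₀ : Place k Fk) (hQ₀ : Q₀.ord (C.red t) = 1)
  (reg : ∀ P, C.r P = Q₀ → 0 ≤ P.ord (t : F))

@[simp] theorem goodRedOfPlace_V : (C.goodRedOfPlace t ht Q₀ hQ₀ reg).V = C.V := rfl
@[simp] theorem goodRedOfPlace_O : (C.goodRedOfPlace t ht Q₀ hQ₀ reg).O = C.O := rfl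
@[simp] theorem goodRedOfPlace_I : (C.goodRedOfPlace t ht Q₀ hQ₀ reg).I = C.I := rfl
@[simp] theorem goodRedOfPlace_r : (C.goodRedOfPlace t ht Q₀ hQ₀ reg).r = C.r := rfl
@[simp] theorem goodRedOfPlace_res : (C.goodRedOfPlace t ht Q₀ hQ₀ reg).res = C.res := rfl
@[simp] theorem goodRedOfPlace_red : (C.goodRedOfPlace t ht Q₀ hQ₀ reg).red = C.red := rfl

end

end GoodRedCore

end Fermat.Agent.S19.H439
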