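import Mathlib
import Fermat.Agent.S19.H439.InertiaLift

/-!
# Cell A3 / GR: valuation rings of `Qbar` above `ℓ` have rank one (helper439)

`K` algebraic over `ℚ`, `V` a valuation subring of `K` with `ℓ ∈ 𝔪_V`.

* `exists_int_poly_eval₂_eq_zero` : every `a ∈ V` is a root of an integer polynomial which is
                                    nonzero modulo `ℓ`.
* `natCast_isUnit_of_not_dvd`     : an integer prime to `ℓ` is a unit of `V`.
* `exists_ell_dvd_pow`            : for `a ∈ 𝔪_V` some power of `a` is divisible by `ℓ` in `V`.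
* `exists_ell_pow_div_mem`        : for every `b` some `ℓ ^ e / b` lies in `V`.
* `harch`                         : (**rank one**) for `a ∈ 𝔪_V`, `b ≠ 0` some `a ^ n / b` lies
                                    in `V` — the hypothesis `harch` of `PW.hensel_mem` and
                                    `disc_localCoords`.
-/

set_option autoImplicit false

noncomputable section

open Polynomial IsLocalRing

namespace Fermat.Agent.S19.H439

variable {K : Type*} [Field K] (V : ValuationSubring K) {ℓ : ℕ} [Fact ℓ.Prime]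

/-- If `K` is algebraic over `ℚ`, every element of `V` is a root of a polynomial with integer
coefficients which is nonzero modulo `ℓ`. -/
theorem exists_int_poly_eval₂_eq_zero [Algebra ℚ K] [Algebra.IsAlgebraic ℚ K] (a : V) :
    ∃ q : ℤ[X], q.map (Int.castRingHom (ZMod ℓ)) ≠ 0 ∧ q.eval₂ (Int.castRingHom V) a = 0 := by
  have hcz : CharZero K := charZero_of_injective_algebraMap (algebraMap ℚ K).injective
  have halg : IsAlgebraic ℚ (a : K) := Algebra.IsAlgebraic.isAlgebraic (a : K)
  have halgZ : IsAlgebraic ℤ (a : K) := (IsFractionRing.isAlgebraic_iff ℤ ℚ K).mpr halg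
  obtain ⟨p, hp0, hpa⟩ := halgZ
  have hq := Polynomial.aeval_primPart_eq_zero hp0 hpa
  refine ⟨p.primPart, ?_, ?_⟩
  · intro h0
    have hdvd : C (ℓ : ℤ) ∣ p.primPart := by
      rw [Polynomial.C_dvd_iff_dvd_coeff]
      intro i
      have := congrArg (fun r => Polynomial.coeff r i) h0
      simp only [coeff_map, coeff_zero, eq_intCast] at this
      exact (ZMod.intCast_zmod_eq_zero_iff_dvd _ _).mp this
    have hu := (Polynomial.isPrimitive_primPart p) _ hdvd
    have hprime : Prime (ℓ : ℤ) := Nat.prime_iff_prime_int.mp (Fact.out : ℓ.Prime)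
    exact hprime.not_isUnit hu
  · have h1 : V.subtype (p.primPart.eval₂ (Int.castRingHom V) a)
        = p.primPart.eval₂ (Int.castRingHom K) (a : K) := by
      rw [Polynomial.hom_eval₂ p.primPart (Int.castRingHom V) V.subtype a]
      have e : V.subtype.comp (Int.castRingHom V) = Int.castRingHom K := RingHom.ext_int _ _
      rw [e]
      rfl
    have h2 : p.primPart.eval₂ (Int.castRingHom K) (a : K) = 0 := by
      rw [← hq, Polynomial.aeval_def]
      have e : algebraMap ℤ K = Int.castRingHom K := RingHom.ext_int _ _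
      rw [e]
    have hinj : Function.Injective V.subtype := fun x y h => Subtype.ext h
    exact hinj ((h1.trans h2).trans (map_zero V.subtype).symm)

omit [Fact ℓ.Prime] in
/-- `ℓ` lies in the maximal ideal of `V`. -/
theorem natCast_mem_maximalIdeal (hℓ : (ℓ : K) ∈ V.nonunits) : (ℓ : V) ∈ maximalIdeal V := by
  have h1 : ((ℓ : V) : K) ∈ V.nonunits := by
    have : ((ℓ : V) : K) = (ℓ : K) := by simp
    rw [this]; exact hℓ
  exact V.coe_mem_nonunits_iff.mp h1

/-- An integer which is not divisible by `ℓ` is a unit of `V`. -/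
theorem intCast_isUnit_of_not_dvd (hℓ : (ℓ : K) ∈ V.nonunits) {c : ℤ} (hc : ¬ (ℓ : ℤ) ∣ c) :
    IsUnit (c : V) := by
  have hprime : Prime (ℓ : ℤ) := Nat.prime_iff_prime_int.mp (Fact.out : ℓ.Prime)
  have hcop : IsCoprime (ℓ : ℤ) c := (hprime.coprime_iff_not_dvd).mpr hc
  obtain ⟨x, y, hxy⟩ := hcop
  by_contra hnu
  have hcm : (c : V) ∈ maximalIdeal V := (mem_maximalIdeal _).mpr hnu
  have hℓm := natCast_mem_maximalIdeal V hℓ
  have h1 : (1 : V) ∈ maximalIdeal V := by
    have e : (1 : V) = (x : V) * (ℓ : V) + (y : V) * (c : V) := by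
      have := congrArg (fun z : ℤ => (z : V)) hxy
      simp only [Int.cast_add, Int.cast_mul, Int.cast_natCast, Int.cast_one] at this
      exact this.symm
    rw [e]
    exact Ideal.add_mem _ (Ideal.mul_mem_left _ _ hℓm) (Ideal.mul_mem_left _ _ hcm)
  exact (Ideal.ne_top_iff_one _).mp (maximalIdeal.isMaximal V).ne_top h1

/-- Auxiliary induction for `exists_ell_dvd_pow`. -/
theorem exists_ell_dvd_pow_aux (hℓ : (ℓ : K) ∈ V.nonunits) (a : V) (ha : a ∈ maximalIdeal V) :
    ∀ (n : ℕ) (p : ℤ[X]), p.natDegree ≤ n → p.map (Int.castRingHom (ZMod ℓ)) ≠ 0 →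
      ∀ s : ℕ, (ℓ : V) ∣ a ^ s * p.eval₂ (Int.castRingHom V) a → ∃ m : ℕ, (ℓ : V) ∣ a ^ m := by
  intro n
  induction n with
  | zero =>
    intro p hp hp0 s hs
    -- `p` is a constant prime to `ℓ`
    have hpC : p = C (p.coeff 0) := Polynomial.eq_C_of_natDegree_le_zero hp
    have hnd : ¬ (ℓ : ℤ) ∣ p.coeff 0 := by
      intro hd
      apply hp0
      rw [hpC, Polynomial.map_C]
      have : (Int.castRingHom (ZMod ℓ)) (p.coeff 0) = 0 := by
        rw [eq_intCast]
        exact (ZMod.intCast_zmod_eq_zero_iff_dvd _ _).mpr hd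
      rw [this, C_0]
    have hu := intCast_isUnit_of_not_dvd V hℓ hnd
    rw [hpC, Polynomial.eval₂_C, eq_intCast] at hs
    exact ⟨s, (hu.dvd_mul_right).mp hs⟩
  | succ n ih =>
    intro p hp hp0 s hs
    by_cases hd : (ℓ : ℤ) ∣ p.coeff 0
    · -- pass to `divX`
      have hdec : p = p.divX * X + C (p.coeff 0) := (Polynomial.divX_mul_X_add p).symm
      have hq0 : p.divX.map (Int.castRingHom (ZMod ℓ)) ≠ 0 := by
        intro h0
        apply hp0
        rw [hdec, Polynomial.map_add, Polynomial.map_mul, h0, zero_mul, zero_add,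
          Polynomial.map_C]
        have : (Int.castRingHom (ZMod ℓ)) (p.coeff 0) = 0 := by
          rw [eq_intCast]
          exact (ZMod.intCast_zmod_eq_zero_iff_dvd _ _).mpr hd
        rw [this, C_0]
      have hqdeg : p.divX.natDegree ≤ n := by
        rw [Polynomial.natDegree_divX_eq_natDegree_tsub_one]
        omega
      apply ih p.divX hqdeg hq0 (s + 1)
      have hev : p.eval₂ (Int.castRingHom V) a
          = p.divX.eval₂ (Int.castRingHom V) a * a + ((p.coeff 0 : ℤ) : V) := by
        conv_lhs => rw [hdec]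
        rw [Polynomial.eval₂_add, Polynomial.eval₂_mul, Polynomial.eval₂_X, Polynomial.eval₂_C,
          eq_intCast]
      rw [hev, mul_add] at hs
      obtain ⟨c, hc⟩ := hd
      have h2 : (ℓ : V) ∣ a ^ s * ((p.coeff 0 : ℤ) : V) := by
        rw [hc]
        push_cast
        exact Dvd.dvd.mul_left (Dvd.intro _ rfl) _
      have h3 := (dvd_add_left h2).mp hs
      have e : a ^ (s + 1) * p.divX.eval₂ (Int.castRingHom V) a
          = a ^ s * (p.divX.eval₂ (Int.castRingHom V) a * a) := by ring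
      rw [e]
      exact h3
    · -- the constant term is a unit, so `p(a)` is a unit
      have hu := intCast_isUnit_of_not_dvd V hℓ hd
      have hdec : p = p.divX * X + C (p.coeff 0) := (Polynomial.divX_mul_X_add p).symm
      have hev : p.eval₂ (Int.castRingHom V) a
          = p.divX.eval₂ (Int.castRingHom V) a * a + ((p.coeff 0 : ℤ) : V) := by
        conv_lhs => rw [hdec]
        rw [Polynomial.eval₂_add, Polynomial.eval₂_mul, Polynomial.eval₂_X, Polynomial.eval₂_C,
          eq_intCast]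
      have hunit : IsUnit (p.eval₂ (Int.castRingHom V) a) := by
        by_contra hnu
        have hm : p.eval₂ (Int.castRingHom V) a ∈ maximalIdeal V := (mem_maximalIdeal _).mpr hnu
        have hm2 : p.divX.eval₂ (Int.castRingHom V) a * a ∈ maximalIdeal V :=
          Ideal.mul_mem_left _ _ ha
        have hm3 : ((p.coeff 0 : ℤ) : V) ∈ maximalIdeal V := by
          have : ((p.coeff 0 : ℤ) : V) = p.eval₂ (Int.castRingHom V) a
              - p.divX.eval₂ (Int.castRingHom V) a * a := by rw [hev]; ring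
          rw [this]
          exact Ideal.sub_mem _ hm hm2
        exact ((mem_maximalIdeal _).mp hm3) hu
      exact ⟨s, (hunit.dvd_mul_right).mp hs⟩

/-- For `a` in the maximal ideal of `V`, some power of `a` is divisible by `ℓ` in `V`. -/
theorem exists_ell_dvd_pow [Algebra ℚ K] [Algebra.IsAlgebraic ℚ K] (hℓ : (ℓ : K) ∈ V.nonunits)
    (a : V) (ha : a ∈ maximalIdeal V) : ∃ m : ℕ, (ℓ : V) ∣ a ^ m := by
  obtain ⟨q, hq0, hq⟩ := exists_int_poly_eval₂_eq_zero (ℓ := ℓ) V a
  refine exists_ell_dvd_pow_aux V hℓ a ha q.natDegree q le_rfl hq0 0 ?_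
  rw [hq, mul_zero]
  exact dvd_zero _

/-- For every `b` some `ℓ ^ e / b` lies in `V`. -/
theorem exists_ell_pow_div_mem [Algebra ℚ K] [Algebra.IsAlgebraic ℚ K]
    (hℓ : (ℓ : K) ∈ V.nonunits) (b : K) : ∃ e : ℕ, (ℓ : K) ^ e / b ∈ V := by
  have hcz : CharZero K := charZero_of_injective_algebraMap (algebraMap ℚ K).injective
  have halg : IsAlgebraic ℚ (b⁻¹) := Algebra.IsAlgebraic.isAlgebraic _
  have halgZ : IsAlgebraic ℤ (b⁻¹) := (IsFractionRing.isAlgebraic_iff ℤ ℚ K).mpr halg
  obtain ⟨y, hy0, hy⟩ := halgZ.exists_integral_multiple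
  -- `y • b⁻¹` is integral over `ℤ`, hence in `V`
  have hyV : (y : K) * b⁻¹ ∈ V := by
    have hint : IsIntegral ℤ ((y : K) * b⁻¹) := by
      have : y • b⁻¹ = (y : K) * b⁻¹ := by rw [zsmul_eq_mul]
      rw [← this]; exact hy
    have hintV : IsIntegral V ((y : K) * b⁻¹) := hint.tower_top
    have := (IsIntegrallyClosed.isIntegral_iff (R := V) (K := K)).mp hintV
    obtain ⟨x, hx⟩ := this
    rw [← hx]
    exact x.2
  -- write `y = ℓ ^ e * u` with `u` prime to `ℓ`
  have hprime : Prime (ℓ : ℤ) := Nat.prime_iff_prime_int.mp (Fact.out : ℓ.Prime)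
  obtain ⟨e, u, hu, hyu⟩ := WfDvdMonoid.max_power_factor hy0 hprime.irreducible
  have huV := intCast_isUnit_of_not_dvd V hℓ hu
  obtain ⟨w, hw⟩ := huV.exists_left_inv
  refine ⟨e, ?_⟩
  have hu0 : (u : K) ≠ 0 := by
    intro h0
    have : u = 0 := by exact_mod_cast h0
    rw [this, mul_zero] at hyu
    exact hy0 hyu
  have hwK : (w : K) * (u : K) = 1 := by
    have := congrArg (fun z : V => (z : K)) hw
    simpa using this
  have e1 : (ℓ : K) ^ e / b = (w : K) * ((y : K) * b⁻¹) := by
    have hyK : (y : K) = (ℓ : K) ^ e * (u : K) := by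
      rw [hyu]; push_cast; ring
    rw [hyK]
    have : (w : K) * ((ℓ : K) ^ e * (u : K) * b⁻¹) = ((w : K) * (u : K)) * ((ℓ : K) ^ e * b⁻¹) := by
      ring
    rw [this, hwK, one_mul, div_eq_mul_inv]
  rw [e1]
  exact V.mul_mem _ _ w.2 hyV

/-- **Rank one**: `V` a valuation subring of an algebraic extension `K` of `ℚ` with `ℓ ∈ 𝔪_V`.
For `a ∈ 𝔪_V` and `b ≠ 0` some `a ^ n / b` lies in `V`. -/
theorem harch [Algebra ℚ K] [Algebra.IsAlgebraic ℚ K] (hℓ : (ℓ : K) ∈ V.nonunits) :
    ∀ a b : K, a ∈ V.nonunits → b ≠ 0 → ∃ n : ℕ, a ^ n / b ∈ V := by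
  intro a b ha _
  obtain ⟨haV, ham⟩ := V.mem_nonunits_iff_exists_mem_maximalIdeal.mp ha
  obtain ⟨m, c, hc⟩ := exists_ell_dvd_pow V hℓ (⟨a, haV⟩ : V) ham
  obtain ⟨e, he⟩ := exists_ell_pow_div_mem V hℓ b
  refine ⟨m * e, ?_⟩
  have hcK : a ^ m = (ℓ : K) * (c : K) := by
    have := congrArg (fun z : V => (z : K)) hc
    simpa using this
  have e1 : a ^ (m * e) / b = (c : K) ^ e * ((ℓ : K) ^ e / b) := by
    rw [pow_mul, hcK, mul_pow]
    ring
  rw [e1]
  exact V.mul_mem _ _ (pow_mem c.2 e) he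

end Fermat.Agent.S19.H439
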